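import Fermat.Prelude.Def_FLTPrelim_FreyPackage
import Fermat.Prelude.Def_FLTPrelim_GaloisRep
import Fermat.Prelude.Def_FLTPrelim_Modularity
import Fermat.Prelude.Def_FLTPrelim_ModularRep
import Fermat.Prelude.Def_FLTPrelim_Ramification
import Fermat.Prelude.Def_FreyPackage_IsConductorLevel

set_option autoImplicit false

/-!
Conditional wiring for the final level-lowering descent: starting from a conductor level,
remove all odd primes (other than `p` via `h43`, and `p` via `h44`) until the level divides `2`.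
-/

namespace Fermat.Agent.S45Wiring

open WeierstrassCurve CuspForm

/-- Descent: from a conductor level one reaches a level dividing `2`. -/
theorem exists_level_dvd_two (P : FreyPackage)
    (h06 : ∃ N : ℕ, P.IsConductorLevel N ∧ P.ModularRepOfLevel N)
    (h05 : ∀ {q : ℕ}, q.Prime → q ≠ 2 → q ≠ P.p → P.GaloisRepUnramifiedAt q)
    (h43 : ∀ {N q : ℕ}, P.IsConductorLevel N → q.Prime → q ≠ 2 → q ≠ P.p → q ∣ N →
      P.ModularRepOfLevel N → P.GaloisRepUnramifiedAt q →
        ∃ M : ℕ, M ∣ N ∧ ¬ q ∣ M ∧ P.ModularRepOfLevel M)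
    (h44 : ∀ {N : ℕ}, P.IsConductorLevel N → P.p ∣ N → P.ModularRepOfLevel N →
      ∃ M : ℕ, M ∣ N ∧ ¬ P.p ∣ M ∧ P.ModularRepOfLevel M) :
    ∃ M : ℕ, M ∣ 2 ∧ P.ModularRepOfLevel M := by
  obtain ⟨N, hN, hmod⟩ := h06
  induction N using Nat.strong_induction_on with
  | _ N ih =>
    by_cases hex : ∃ q : ℕ, q.Prime ∧ q ≠ 2 ∧ q ∣ N
    · obtain ⟨q, hq, hq2, hqN⟩ := hex
      have key : ∃ M : ℕ, M ∣ N ∧ ¬ q ∣ M ∧ P.ModularRepOfLevel M := by
        by_cases hqp : q = P.p
        · subst hqp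
          exact h44 hN hqN hmod
        · exact h43 hN hq hq2 hqp hqN hmod (h05 hq hq2 hqp)
      obtain ⟨M, hMN, hqM, hM⟩ := key
      have hMpos : 0 < M := Nat.pos_of_ne_zero (fun h => hqM (h ▸ dvd_zero q))
      have hlt : M < N :=
        lt_of_le_of_ne (Nat.le_of_dvd hN.pos hMN) (fun h => hqM (h ▸ hqN))
      exact ih M hlt (hN.of_dvd hMN hMpos) hM
    · push Not at hex
      refine ⟨N, ?_, hmod⟩
      have hN2 : ∀ q : ℕ, q.Prime → q ∣ N → q = 2 := fun q hq hqN => by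
        by_contra h
        exact hex q hq h hqN
      -- N is a power of two, squarefree
      have hpow : N = 2 ^ N.primeFactorsList.length :=
        Nat.eq_prime_pow_of_unique_prime_dvd hN.pos.ne' (fun {d} hd hdN => hN2 d hd hdN)
      rw [hpow]
      by_cases hlen : N.primeFactorsList.length ≤ 1
      · calc 2 ^ N.primeFactorsList.length ∣ 2 ^ 1 := pow_dvd_pow 2 hlen
          _ = 2 := pow_one 2
      · exfalso
        push Not at hlen
        have h4 : 2 ^ 2 ∣ N := by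
          rw [hpow]
          exact pow_dvd_pow 2 hlen
        exact hN.sq_not_dvd Nat.prime_two h4

/-- The endgame: `S45` from the level-lowering inputs and the vanishing in level one. -/
theorem exists_ne_zero_of_inputs (P : FreyPackage)
    (h06 : ∃ N : ℕ, P.IsConductorLevel N ∧ P.ModularRepOfLevel N)
    (h05 : ∀ {q : ℕ}, q.Prime → q ≠ 2 → q ≠ P.p → P.GaloisRepUnramifiedAt q)
    (h43 : ∀ {N q : ℕ}, P.IsConductorLevel N → q.Prime → q ≠ 2 → q ≠ P.p → q ∣ N →
      P.ModularRepOfLevel N → P.GaloisRepUnramifiedAt q →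
        ∃ M : ℕ, M ∣ N ∧ ¬ q ∣ M ∧ P.ModularRepOfLevel M)
    (h44 : ∀ {N : ℕ}, P.IsConductorLevel N → P.p ∣ N → P.ModularRepOfLevel N →
      ∃ M : ℕ, M ∣ N ∧ ¬ P.p ∣ M ∧ P.ModularRepOfLevel M)
    (h08 : ∀ f : CuspForm (CongruenceSubgroup.Gamma0 1) 2, f = 0) :
    ∃ f : CuspForm (CongruenceSubgroup.Gamma0 2) 2, f ≠ 0 := by
  obtain ⟨M, hM2, f, W, 𝔪, hf, -⟩ := exists_level_dvd_two P h06 h05 h43 h44
  rcases (Nat.dvd_prime Nat.prime_two).mp hM2 with rfl | rfl
  · exact absurd (h08 f) hf.ne_zero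
  · exact ⟨f, hf.ne_zero⟩

end Fermat.Agent.S45Wiring
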